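import Fermat.Agent.RT.Germ.Family

/-!
# Points of the local relations `a² + be = δ²`, `(s, t, r) ∥ (a, b, e)`

A property of points which persists along cubic arcs and holds on the germ at the diagonal point
holds at every point.
-/

set_option autoImplicit false

namespace Fermat.Agent.RT.Germ

variable {K : Type*} [NontriviallyNormedField K] [IsUltrametricDist K]

/-- A cubic arc. -/
def cubic (c : Fin 4 → K) (z : K) : K := c 0 + c 1 * z + c 2 * z ^ 2 + c 3 * z ^ 3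

/-- Persistence along cubic arcs. -/
def Persists (S : (Fin 2 → Fin 3 → ball1 K) → Prop) : Prop :=
  ∀ c : Fin 2 → Fin 3 → Fin 4 → K, (∀ i j, ‖c i j 0‖ < 1) → (∀ i j k, ‖c i j k‖ ≤ 1) →
    ∀ ε : ℝ, 0 < ε →
      (∀ z : K, ‖z‖ < ε → ‖z‖ < 1 → ∀ P, (∀ i j, (P i j : K) = cubic (c i j) z) → S P) →
      ∀ z : K, ‖z‖ < 1 → ∀ P, (∀ i j, (P i j : K) = cubic (c i j) z) → S P

/-- The property at the point with coordinates `u`, `w`. -/
def Sat (S : (Fin 2 → Fin 3 → ball1 K) → Prop) (u w : Fin 3 → K) : Prop :=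
  ∀ P : Fin 2 → Fin 3 → ball1 K, (∀ j, (P 0 j : K) = u j) → (∀ j, (P 1 j : K) = w j) → S P

/-- The direction at parameters `x`, `y` near the diagonal one. -/
def dir (x y : K) : Fin 3 → K := ![1 + 2 * x * y, -2 * x, 2 * y * (1 + x * y)]

variable {S : (Fin 2 → Fin 3 → ball1 K) → Prop}

theorem Persists.curve (hS : Persists S) (cu cw : Fin 3 → Fin 4 → K)
    (h0u : ∀ j, ‖cu j 0‖ < 1) (h0w : ∀ j, ‖cw j 0‖ < 1)
    (hu : ∀ j k, ‖cu j k‖ ≤ 1) (hw : ∀ j k, ‖cw j k‖ ≤ 1) {ε : ℝ} (hε : 0 < ε)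
    (h : ∀ z : K, ‖z‖ < ε → ‖z‖ < 1 →
      Sat S (fun j => cubic (cu j) z) (fun j => cubic (cw j) z))
    {z : K} (hz : ‖z‖ < 1) :
    Sat S (fun j => cubic (cu j) z) (fun j => cubic (cw j) z) := by
  intro P h0 h1
  refine hS ![cu, cw] ?_ ?_ ε hε (fun z hzε hz1 P hP => h z hzε hz1 P (hP 0) (hP 1)) z hz P ?_
  · exact Fin.forall_fin_two.mpr ⟨h0u, h0w⟩
  · exact Fin.forall_fin_two.mpr ⟨hu, hw⟩
  · exact Fin.forall_fin_two.mpr ⟨h0, h1⟩

omit [IsUltrametricDist K] in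
theorem norm_two_mul (h2 : ‖(2 : K)‖ = 1) (x : K) : ‖2 * x‖ = ‖x‖ := by rw [norm_mul, h2, one_mul]

theorem norm_add_le_of (x y : K) {r : ℝ} (hx : ‖x‖ ≤ r) (hy : ‖y‖ ≤ r) : ‖x + y‖ ≤ r :=
  (IsUltrametricDist.norm_add_le_max _ _).trans (max_le hx hy)

theorem norm_sub_lt_of (x y : K) {r : ℝ} (hx : ‖x‖ < r) (hy : ‖y‖ < r) : ‖x - y‖ < r := by
  have := IsUltrametricDist.norm_add_le_max x (-y)
  rw [← sub_eq_add_neg, norm_neg] at this
  exact this.trans_lt (max_lt hx hy)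

variable [IsAlgClosed K]

omit [IsUltrametricDist K] in
theorem exists_eta_bound {c : ℝ} (hc : c < 1) : ∃ η : K, η ≠ 0 ∧ ‖η‖ < 1 ∧ c < ‖η‖ ∧
    c < ‖η‖ ^ 2 ∧ c < ‖η‖ ^ 3 := by
  obtain ⟨η, h0, h1, h3⟩ := exists_eta (K := K) hc 3
  refine ⟨η, h0, h1, ?_, ?_, h3⟩
  · exact h3.trans_le (pow_le_of_le_one (norm_nonneg _) h1.le (by norm_num))
  · exact h3.trans_le (pow_le_pow_of_le_one (norm_nonneg _) h1.le (by norm_num))

variable {δ : K}

/-- The germ hypothesis. -/
def GermSat (S : (Fin 2 → Fin 3 → ball1 K) → Prop) (δ : K) : Prop :=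
  ∀ x y t : K, ‖x‖ < 1 → ‖y‖ < 1 → ‖t‖ < 1 →
    Sat S (fun j => δ * dir x y j) (fun j => t * dir x y j)

/-- Points on the sheet of the diagonal point. -/
theorem sat_near (hS : Persists S) (h2 : ‖(2 : K)‖ = 1) (hδ0 : δ ≠ 0) (hδ1 : ‖δ‖ < 1)
    (hG : GermSat S δ) {a b e μ : K} (hu : a ^ 2 + b * e = δ ^ 2) (hb : ‖b‖ < 1)
    (he : ‖e‖ < 1) (ha : ‖a - δ‖ < ‖δ‖) (hμ : ‖μ‖ < 1) :
    Sat S ![a, b, e] ![μ * a, μ * b, μ * e] := by
  have h2' : (2 : K) ≠ 0 := norm_pos_iff.mp (h2 ▸ one_pos)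
  have hδp : 0 < ‖δ‖ := norm_pos_iff.mpr hδ0
  have had : ‖a + δ‖ = ‖δ‖ := by
    have h : ‖a - δ‖ ≠ ‖2 * δ‖ := by rw [norm_two_mul h2]; exact ha.ne
    have := IsUltrametricDist.norm_add_eq_max_of_norm_ne_norm h
    rw [show a - δ + 2 * δ = a + δ by ring, norm_two_mul h2, max_eq_right ha.le] at this
    exact this
  have had0 : a + δ ≠ 0 := norm_pos_iff.mp (had ▸ hδp)
  obtain ⟨x, hx⟩ : ∃ x : K, x = -b / (2 * δ) := ⟨_, rfl⟩
  obtain ⟨y, hy⟩ : ∃ y : K, y = e / (a + δ) := ⟨_, rfl⟩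
  have hxy : 2 * δ * (x * y) = a - δ := by
    rw [hx, hy]
    field_simp
    linear_combination -hu
  have hnx : ‖δ * x‖ = ‖b‖ := by
    rw [hx, show δ * (-b / (2 * δ)) = -b / 2 by field_simp, norm_div, norm_neg, h2, div_one]
  have hny : ‖δ * y‖ = ‖e‖ := by
    rw [hy, norm_mul, norm_div, had, mul_div_cancel₀ _ hδp.ne']
  have hnxy : ‖x * y‖ < 1 := by
    have : ‖a - δ‖ = ‖δ‖ * ‖x * y‖ := by
      rw [← hxy, show 2 * δ * (x * y) = 2 * (δ * (x * y)) by ring, norm_two_mul h2, norm_mul]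
    rw [this] at ha
    nlinarith
  obtain ⟨η, hη0, hη1, hη, hη2, hη3⟩ :=
    exists_eta_bound (K := K) (c := max ‖b‖ (max ‖e‖ ‖x * y‖)) (max_lt hb (max_lt he hnxy))
  simp only [max_lt_iff] at hη hη2 hη3
  have hηp : 0 < ‖η‖ := norm_pos_iff.mpr hη0
  let cu : Fin 3 → Fin 4 → K :=
    ![![δ, 0, 2 * δ * (x * y) / η ^ 2, 0], ![0, -2 * (δ * x) / η, 0, 0],
      ![0, 2 * (δ * y) / η, 0, 2 * (δ * y) * (x * y) / η ^ 3]]
  have hcu : ∀ j k, ‖cu j k‖ < 1 := by
    intro j k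
    have e1 : ‖-2 * (δ * x) / η‖ < 1 := by
      rw [norm_div, norm_mul, norm_neg, h2, one_mul, hnx, div_lt_one hηp]
      exact hη.1
    have e2 : ‖2 * (δ * y) / η‖ < 1 := by
      rw [norm_div, norm_mul, h2, one_mul, hny, div_lt_one hηp]
      exact hη.2.1
    have e3 : ‖2 * δ * (x * y) / η ^ 2‖ < 1 := by
      rw [norm_div, norm_mul, norm_two_mul h2, norm_pow, div_lt_one (pow_pos hηp 2)]
      exact lt_of_le_of_lt (mul_le_of_le_one_left (norm_nonneg _) hδ1.le) hη2.2.2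
    have e4 : ‖2 * (δ * y) * (x * y) / η ^ 3‖ < 1 := by
      rw [norm_div, norm_mul, norm_two_mul h2, hny, norm_pow, div_lt_one (pow_pos hηp 3)]
      exact lt_of_le_of_lt (mul_le_of_le_one_right (norm_nonneg _) hnxy.le) hη3.2.1
    fin_cases j <;> fin_cases k <;> simp only [cu, Fin.zero_eta, Fin.mk_one, Fin.reduceFinMk, Matrix.cons_val] <;>
      first | exact e1 | exact e2 | exact e3 | exact e4 | exact hδ1 | simp
  let cw : Fin 3 → Fin 4 → K := fun j k => μ * cu j k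
  have hcw : ∀ j k, ‖cw j k‖ < 1 := fun j k => by
    simp only [cw, norm_mul]
    exact mul_lt_one_of_nonneg_of_lt_one_left (norm_nonneg _) hμ (hcu j k).le
  have key := Persists.curve hS cu cw (fun j => hcu j 0) (fun j => hcw j 0)
    (fun j k => (hcu j k).le) (fun j k => (hcw j k).le)
    (ε := ‖η‖ / (‖x‖ + ‖y‖ + 1)) (by positivity) ?_ (z := η) hη1
  · have hval : ∀ j, cubic (cu j) η = ![a, b, e] j := by
      intro j
      fin_cases j
      · simp [cubic, cu]; field_simp; linear_combination hxy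
      · simp [cubic, cu, hx]; field_simp
      · simp [cubic, cu]
        have : 2 * (δ * y) + 2 * (δ * y) * (x * y) = e := by
          rw [show 2 * (δ * y) + 2 * (δ * y) * (x * y) = y * (2 * δ + 2 * δ * (x * y)) by ring,
            hxy, show 2 * δ + (a - δ) = a + δ by ring, hy, div_mul_cancel₀ _ had0]
        field_simp
        linear_combination this
    intro P h0 h1
    refine key P (fun j => (h0 j).trans (hval j).symm) (fun j => (h1 j).trans ?_)
    have hc : cubic (cw j) η = μ * cubic (cu j) η := by simp only [cw, cubic]; ring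
    beta_reduce
    rw [hc, hval]
    fin_cases j <;> rfl
  · intro z hz _
    rw [lt_div_iff₀ (by positivity)] at hz
    have hzx : ‖x * (z / η)‖ < 1 := by
      rw [norm_mul, norm_div, ← mul_div_assoc, div_lt_one hηp]
      nlinarith [norm_nonneg x, norm_nonneg y, norm_nonneg z]
    have hzy : ‖y * (z / η)‖ < 1 := by
      rw [norm_mul, norm_div, ← mul_div_assoc, div_lt_one hηp]
      nlinarith [norm_nonneg x, norm_nonneg y, norm_nonneg z]
    have hδμ : ‖δ * μ‖ < 1 := by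
      rw [norm_mul]
      exact mul_lt_one_of_nonneg_of_lt_one_left (norm_nonneg _) hδ1 hμ.le
    intro P h0 h1
    refine hG _ _ (δ * μ) hzx hzy hδμ P (fun j => ?_) (fun j => ?_)
    · rw [h0]; fin_cases j <;> simp [cubic, cu, dir] <;> field_simp
    · rw [h1]; fin_cases j <;> simp [cubic, cu, cw, dir] <;> field_simp

/-- Points where `e` dominates. -/
theorem sat_lower (hS : Persists S) (h2 : ‖(2 : K)‖ = 1) (hδ0 : δ ≠ 0) (hδ1 : ‖δ‖ < 1)
    (hG : GermSat S δ) {a b e μ : K} (hu : a ^ 2 + b * e = δ ^ 2) (he1 : ‖e‖ < 1)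
    (hbe : ‖b‖ ≤ ‖e‖) (hδe : ‖δ‖ ≤ ‖e‖) (hμ : ‖μ‖ < 1) :
    Sat S ![a, b, e] ![μ * a, μ * b, μ * e] := by
  have hδp : 0 < ‖δ‖ := norm_pos_iff.mpr hδ0
  have hep : 0 < ‖e‖ := hδp.trans_le hδe
  have he0 : e ≠ 0 := norm_pos_iff.mp hep
  have hae : ‖a‖ ≤ ‖e‖ := by
    have h : ‖a ^ 2‖ ≤ ‖e‖ ^ 2 := by
      rw [show a ^ 2 = δ ^ 2 + -(b * e) by linear_combination hu]
      refine norm_add_le_of _ _ ?_ ?_
      · rw [norm_pow]; exact pow_le_pow_left₀ (norm_nonneg _) hδe 2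
      · rw [norm_neg, norm_mul, sq]; exact mul_le_mul_of_nonneg_right hbe (norm_nonneg _)
    rw [norm_pow] at h
    exact le_of_pow_le_pow_left₀ two_ne_zero (norm_nonneg _) h
  set c : K := a - δ with hc
  have hce : ‖c‖ ≤ ‖e‖ := by
    rw [hc, sub_eq_add_neg]
    exact norm_add_le_of _ _ hae (by rwa [norm_neg])
  obtain ⟨η, hη0, hη1, hη, hη2, -⟩ := exists_eta_bound (K := K) (c := ‖e‖) he1
  have hηp : 0 < ‖η‖ := norm_pos_iff.mpr hη0
  let cu : Fin 3 → Fin 4 → K :=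
    ![![δ, c / η, 0, 0], ![0, -(2 * δ * c) / (e * η), -c ^ 2 / (e * η ^ 2), 0], ![e, 0, 0, 0]]
  have hcu : ∀ j k, ‖cu j k‖ < 1 := by
    intro j k
    have e1 : ‖c / η‖ < 1 := by
      rw [norm_div, div_lt_one hηp]
      exact hce.trans_lt hη
    have e2 : ‖-(2 * δ * c) / (e * η)‖ < 1 := by
      rw [norm_div, norm_neg, norm_mul, norm_two_mul h2, norm_mul, div_lt_one (by positivity)]
      calc ‖δ‖ * ‖c‖ ≤ ‖e‖ * ‖e‖ := mul_le_mul hδe hce (norm_nonneg _) (norm_nonneg _)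
        _ < ‖e‖ * ‖η‖ := mul_lt_mul_of_pos_left hη hep
    have e3 : ‖-c ^ 2 / (e * η ^ 2)‖ < 1 := by
      rw [norm_div, norm_neg, norm_mul, norm_pow, norm_pow, div_lt_one (by positivity)]
      calc ‖c‖ ^ 2 ≤ ‖e‖ * ‖e‖ := by rw [← sq]; exact pow_le_pow_left₀ (norm_nonneg _) hce 2
        _ < ‖e‖ * ‖η‖ ^ 2 := mul_lt_mul_of_pos_left hη2 hep
    fin_cases j <;> fin_cases k <;>
      simp only [cu, Fin.zero_eta, Fin.mk_one, Fin.reduceFinMk, Matrix.cons_val] <;>
      first | exact e1 | exact e2 | exact e3 | exact hδ1 | exact he1 | simp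
  let cw : Fin 3 → Fin 4 → K := fun j k => μ * cu j k
  have hcw : ∀ j k, ‖cw j k‖ < 1 := fun j k => by
    simp only [cw, norm_mul]
    exact mul_lt_one_of_nonneg_of_lt_one_left (norm_nonneg _) hμ (hcu j k).le
  have hcμ : ∀ j z, cubic (cw j) z = μ * cubic (cu j) z := fun j z => by
    simp only [cw, cubic]; ring
  have key := Persists.curve hS cu cw (fun j => hcu j 0) (fun j => hcw j 0)
    (fun j k => (hcu j k).le) (fun j k => (hcw j k).le)
    (ε := ‖δ‖ * ‖η‖ / (‖c‖ + 1)) (by positivity) ?_ (z := η) hη1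
  · have hval : ∀ j, cubic (cu j) η = ![a, b, e] j := by
      intro j
      fin_cases j
      · simp [cubic, cu, hc]; field_simp; ring
      · simp [cubic, cu, hc]; field_simp; linear_combination -hu
      · simp [cubic, cu]
    intro P h0 h1
    refine key P (fun j => (h0 j).trans (hval j).symm) (fun j => (h1 j).trans ?_)
    beta_reduce
    rw [hcμ, hval]
    fin_cases j <;> rfl
  · intro z hz hz1
    have hu' : cubic (cu 0) z ^ 2 + cubic (cu 1) z * cubic (cu 2) z = δ ^ 2 := by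
      simp [cubic, cu]; field_simp; ring
    have ha' : ‖cubic (cu 0) z - δ‖ < ‖δ‖ := by
      have : cubic (cu 0) z - δ = c / η * z := by simp [cubic, cu]
      rw [this, norm_mul, norm_div, div_mul_eq_mul_div, div_lt_iff₀ hηp]
      rw [lt_div_iff₀ (by positivity)] at hz
      nlinarith [norm_nonneg z, norm_nonneg c]
    have hlt : ∀ j, ‖cubic (cu j) z‖ < 1 := fun j => by
      simp only [cubic]
      have hb : ∀ (k : Fin 4) (n : ℕ), ‖cu j k * z ^ n‖ < 1 := fun k n => by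
        rw [norm_mul, norm_pow]
        exact mul_lt_one_of_nonneg_of_lt_one_left (norm_nonneg _) (hcu j k)
          (pow_le_one₀ (norm_nonneg _) hz1.le)
      refine (IsUltrametricDist.norm_add_le_max _ _).trans_lt (max_lt ?_ (hb 3 3))
      refine (IsUltrametricDist.norm_add_le_max _ _).trans_lt (max_lt ?_ (hb 2 2))
      refine (IsUltrametricDist.norm_add_le_max _ _).trans_lt (max_lt ?_ ?_)
      · simpa using hb 0 0
      · simpa using hb 1 1
    intro P h0 h1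
    refine sat_near hS h2 hδ0 hδ1 hG hu' (hlt 1) (hlt 2) ha' hμ P (fun j => ?_) (fun j => ?_)
    · rw [h0]; fin_cases j <;> rfl
    · rw [h1]; beta_reduce; rw [hcμ]; fin_cases j <;> rfl

/-- Exchange the last two coordinates. -/
def swap23 {α : Type*} (v : Fin 3 → α) : Fin 3 → α := ![v 0, v 2, v 1]

/-- The property read after exchanging `b` and `e`. -/
def swapped (S : (Fin 2 → Fin 3 → ball1 K) → Prop) : (Fin 2 → Fin 3 → ball1 K) → Prop :=
  fun P => S fun i => swap23 (P i)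

omit [IsAlgClosed K] in
theorem swap23_swap23 {α : Type*} (v : Fin 3 → α) : swap23 (swap23 v) = v := by
  funext j; fin_cases j <;> rfl

omit [IsAlgClosed K] in
theorem sat_swapped {u w : Fin 3 → K} (h : Sat (swapped S) (swap23 u) (swap23 w)) : Sat S u w := by
  intro P h0 h1
  have := h (fun i => swap23 (P i)) (fun j => ?_) (fun j => ?_)
  · simpa [swapped, swap23_swap23] using this
  · fin_cases j <;> simp [swap23, h0]
  · fin_cases j <;> simp [swap23, h1]

omit [IsAlgClosed K] in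
theorem persists_swapped (hS : Persists S) : Persists (swapped S) := by
  intro c hc0 hc ε hε h z hz P hP
  have key := hS (fun i => swap23 (c i)) (fun i j => ?_) (fun i j k => ?_) ε hε
    (fun z hzε hz1 Q hQ => ?_) z hz (fun i => swap23 (P i)) (fun i j => ?_)
  · exact key
  · fin_cases j <;> simp [swap23, hc0]
  · fin_cases j <;> simp [swap23, hc]
  · have := h z hzε hz1 (fun i => swap23 (Q i)) (fun i j => by fin_cases j <;> simp [swap23, hQ])
    simpa [swapped, swap23_swap23] using this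
  · fin_cases j <;> simp [swap23, hP]

omit [IsAlgClosed K] in
theorem germSat_swapped (hG : GermSat S δ) : GermSat (swapped S) δ := by
  intro x y t hx hy ht P h0 h1
  have hxy : ‖x * y‖ < 1 := by
    rw [norm_mul]
    exact mul_lt_one_of_nonneg_of_lt_one_left (norm_nonneg _) hx hy.le
  have h1xy : ‖1 + x * y‖ = 1 := by
    have h : ‖(1 : K)‖ ≠ ‖x * y‖ := by rw [norm_one]; exact hxy.ne'
    rw [IsUltrametricDist.norm_add_eq_max_of_norm_ne_norm h, norm_one, max_eq_left hxy.le]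
  have hne : 1 + x * y ≠ 0 := fun h => by simp [h] at h1xy
  have hdir : ∀ j, dir (-y * (1 + x * y)) (-x / (1 + x * y)) j = swap23 (dir x y) j := by
    have hp : -y * (1 + x * y) * (-x / (1 + x * y)) = x * y := by
      rw [← mul_div_assoc, div_eq_iff hne]; ring
    intro j
    fin_cases j <;> simp only [dir, swap23, Fin.zero_eta, Fin.mk_one, Fin.reduceFinMk,
      Matrix.cons_val] <;> [skip; ring; skip]
    · linear_combination 2 * hp
    · rw [hp]; field_simp
  refine hG (-y * (1 + x * y)) (-x / (1 + x * y)) t ?_ ?_ ht (fun i => swap23 (P i))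
    (fun j => ?_) (fun j => ?_)
  · rwa [norm_mul, norm_neg, h1xy, mul_one]
  · rwa [norm_div, norm_neg, h1xy, div_one]
  · beta_reduce
    rw [hdir]
    fin_cases j <;> simp [swap23, h0]
  · beta_reduce
    rw [hdir]
    fin_cases j <;> simp [swap23, h1]

/-- Points where `b` dominates. -/
theorem sat_upper (hS : Persists S) (h2 : ‖(2 : K)‖ = 1) (hδ0 : δ ≠ 0) (hδ1 : ‖δ‖ < 1)
    (hG : GermSat S δ) {a b e μ : K} (hu : a ^ 2 + b * e = δ ^ 2) (hb1 : ‖b‖ < 1)
    (heb : ‖e‖ ≤ ‖b‖) (hδb : ‖δ‖ ≤ ‖b‖) (hμ : ‖μ‖ < 1) :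
    Sat S ![a, b, e] ![μ * a, μ * b, μ * e] :=
  sat_swapped (by
    simpa [swap23] using sat_lower (S := swapped S) (persists_swapped hS) h2 hδ0 hδ1
      (germSat_swapped hG) (a := a) (b := e) (e := b) (by linear_combination hu) hb1 heb hδb hμ)

/-- All points of the conic, with a small ratio. -/
theorem sat_small (hS : Persists S) (h2 : ‖(2 : K)‖ = 1) (hδ0 : δ ≠ 0) (hδ1 : ‖δ‖ < 1)
    (hG : GermSat S δ) {a b e μ : K} (hu : a ^ 2 + b * e = δ ^ 2) (hb1 : ‖b‖ < 1)
    (he1 : ‖e‖ < 1) (hμ : ‖μ‖ < 1) : Sat S ![a, b, e] ![μ * a, μ * b, μ * e] := by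
  rcases le_or_gt (max ‖δ‖ ‖b‖) ‖e‖ with h | h
  · exact sat_lower hS h2 hδ0 hδ1 hG hu he1 ((le_max_right _ _).trans h)
      ((le_max_left _ _).trans h) hμ
  rcases le_or_gt (max ‖δ‖ ‖e‖) ‖b‖ with h' | h'
  · exact sat_upper hS h2 hδ0 hδ1 hG hu hb1 ((le_max_right _ _).trans h')
      ((le_max_left _ _).trans h') hμ
  have hbδ : ‖b‖ < ‖δ‖ := by
    rcases le_total ‖δ‖ ‖e‖ with hh | hh
    · rw [max_eq_right hh] at h'
      exact absurd h (not_lt.mpr (max_le hh h'.le))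
    · rwa [max_eq_left hh] at h'
  have heδ : ‖e‖ < ‖δ‖ := by rwa [max_eq_left hbδ.le] at h
  have hδp : 0 < ‖δ‖ := norm_pos_iff.mpr hδ0
  by_cases hnear : ‖a - δ‖ < ‖δ‖
  · exact sat_near hS h2 hδ0 hδ1 hG hu hb1 he1 hnear hμ
  have hprod : ‖a - δ‖ * ‖a + δ‖ < ‖δ‖ * ‖δ‖ := by
    rw [← norm_mul, show (a - δ) * (a + δ) = -(b * e) by linear_combination hu, norm_neg, norm_mul]
    exact mul_lt_mul'' hbδ heδ (norm_nonneg _) (norm_nonneg _)
  have hfar : ‖a + δ‖ < ‖δ‖ := by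
    by_contra h0
    exact absurd hprod (not_lt.mpr (mul_le_mul (not_lt.mp hnear) (not_lt.mp h0) hδp.le
      (norm_nonneg _)))
  have ha : ‖a‖ = ‖δ‖ := by
    have h : ‖a + δ‖ ≠ ‖-δ‖ := by rw [norm_neg]; exact hfar.ne
    have := IsUltrametricDist.norm_add_eq_max_of_norm_ne_norm h
    rw [add_neg_cancel_right, norm_neg, max_eq_right hfar.le] at this
    exact this
  obtain ⟨η, hη0, hη1, hη, hη2, -⟩ := exists_eta_bound (K := K) (c := ‖δ‖) hδ1
  have hηp : 0 < ‖η‖ := norm_pos_iff.mpr hη0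
  let cu : Fin 3 → Fin 4 → K :=
    ![![a + e, -e / η, 0, 0], ![b - 2 * a - e, (2 * a + 2 * e) / η, -e / η ^ 2, 0],
      ![e, 0, 0, 0]]
  have hcu : ∀ j k, ‖cu j k‖ < 1 := by
    intro j k
    have e0 : ‖a + e‖ < 1 := (norm_add_le_of _ _ ha.le heδ.le).trans_lt hδ1
    have e0' : ‖b - 2 * a - e‖ < 1 :=
      norm_sub_lt_of _ _ (norm_sub_lt_of _ _ hb1 (by rw [norm_two_mul h2, ha]; exact hδ1)) he1
    have e1 : ‖-e / η‖ < 1 := by
      rw [norm_div, norm_neg, div_lt_one hηp]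
      exact heδ.trans hη
    have e2 : ‖(2 * a + 2 * e) / η‖ < 1 := by
      rw [norm_div, ← mul_add, norm_two_mul h2, div_lt_one hηp]
      exact (norm_add_le_of _ _ ha.le heδ.le).trans_lt hη
    have e3 : ‖-e / η ^ 2‖ < 1 := by
      rw [norm_div, norm_neg, norm_pow, div_lt_one (pow_pos hηp 2)]
      exact heδ.trans hη2
    fin_cases j <;> fin_cases k <;>
      simp only [cu, Fin.zero_eta, Fin.mk_one, Fin.reduceFinMk, Matrix.cons_val] <;>
      first | exact e0 | exact e0' | exact e1 | exact e2 | exact e3 | exact he1 | simp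
  let cw : Fin 3 → Fin 4 → K := fun j k => μ * cu j k
  have hcw : ∀ j k, ‖cw j k‖ < 1 := fun j k => by
    simp only [cw, norm_mul]
    exact mul_lt_one_of_nonneg_of_lt_one_left (norm_nonneg _) hμ (hcu j k).le
  have hcμ : ∀ j z, cubic (cw j) z = μ * cubic (cu j) z := fun j z => by
    simp only [cw, cubic]; ring
  have key := Persists.curve hS cu cw (fun j => hcu j 0) (fun j => hcw j 0)
    (fun j k => (hcu j k).le) (fun j k => (hcw j k).le)
    (ε := ‖η‖) hηp ?_ (z := η) hη1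
  · have hval : ∀ j, cubic (cu j) η = ![a, b, e] j := by
      intro j
      fin_cases j
      · simp [cubic, cu]; field_simp; ring
      · simp [cubic, cu]; field_simp; ring
      · simp [cubic, cu]
    intro P h0 h1
    refine key P (fun j => (h0 j).trans (hval j).symm) (fun j => (h1 j).trans ?_)
    beta_reduce
    rw [hcμ, hval]
    fin_cases j <;> rfl
  · intro z hz _
    obtain ⟨x, hx⟩ : ∃ x : K, x = 1 - z / η := ⟨_, rfl⟩
    have hxn : ‖x‖ = 1 := by
      have hlt : ‖-(z / η)‖ < 1 := by rwa [norm_neg, norm_div, div_lt_one hηp]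
      have h : ‖(1 : K)‖ ≠ ‖-(z / η)‖ := by rw [norm_one]; exact hlt.ne'
      rw [hx, sub_eq_add_neg, IsUltrametricDist.norm_add_eq_max_of_norm_ne_norm h, norm_one,
        max_eq_left hlt.le]
    have h0' : cubic (cu 0) z = a + x * e := by simp [cubic, cu, hx]; field_simp; ring
    have h1' : cubic (cu 1) z = b - 2 * x * a - x ^ 2 * e := by
      simp [cubic, cu, hx]; field_simp; ring
    have h2c : cubic (cu 2) z = e := by simp [cubic, cu]
    have hb' : ‖b - 2 * x * a - x ^ 2 * e‖ = ‖δ‖ := by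
      have hsmall : ‖b - x ^ 2 * e‖ < ‖δ‖ :=
        norm_sub_lt_of _ _ hbδ (by rw [norm_mul, norm_pow, hxn, one_pow, one_mul]; exact heδ)
      have hbig : ‖-(2 * (x * a))‖ = ‖δ‖ := by
        rw [norm_neg, norm_two_mul h2, norm_mul, hxn, one_mul, ha]
      rw [show b - 2 * x * a - x ^ 2 * e = -(2 * (x * a)) + (b - x ^ 2 * e) by ring,
        IsUltrametricDist.norm_add_eq_max_of_norm_ne_norm (by rw [hbig]; exact hsmall.ne'),
        hbig, max_eq_left hsmall.le]
    intro P h0 h1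
    refine sat_upper hS h2 hδ0 hδ1 hG (a := a + x * e) (b := b - 2 * x * a - x ^ 2 * e) (e := e)
      (by linear_combination hu) (hb' ▸ hδ1) (hb' ▸ heδ.le) hb'.ge hμ P (fun j => ?_) (fun j => ?_)
    · rw [h0]; fin_cases j <;> simp [h0', h1', h2c]
    · rw [h1]; beta_reduce; rw [hcμ]; fin_cases j <;> simp [h0', h1', h2c]

/-- A property persisting along cubic arcs and holding on the germ at the diagonal point holds at
every point of the relations. -/
theorem sat_of_relations (hS : Persists S) (h2 : ‖(2 : K)‖ = 1) (hδ0 : δ ≠ 0) (hδ1 : ‖δ‖ < 1)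
    (hG : GermSat S δ) {u w : Fin 3 → K} (hu1 : ∀ j, ‖u j‖ < 1) (hw1 : ∀ j, ‖w j‖ < 1)
    (hu : u 0 ^ 2 + u 1 * u 2 = δ ^ 2) (h01 : u 0 * w 1 = u 1 * w 0)
    (h02 : u 0 * w 2 = u 2 * w 0) (h12 : u 1 * w 2 = u 2 * w 1) : Sat S u w := by
  obtain ⟨μ, hμ⟩ : ∃ μ : K, ∀ j, w j = μ * u j := by
    have hne : u 0 ≠ 0 ∨ u 1 ≠ 0 ∨ u 2 ≠ 0 := by
      by_contra h
      simp only [not_or, not_not] at h
      rw [h.1, h.2.1] at hu
      exact pow_ne_zero 2 hδ0 (by linear_combination -hu)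
    rcases hne with h | h | h
    · refine ⟨w 0 / u 0, fun j => ?_⟩
      fin_cases j <;> simp <;> field_simp
      · linear_combination h01
      · linear_combination h02
    · refine ⟨w 1 / u 1, fun j => ?_⟩
      fin_cases j <;> simp <;> field_simp
      · linear_combination -h01
      · linear_combination h12
    · refine ⟨w 2 / u 2, fun j => ?_⟩
      fin_cases j <;> simp <;> field_simp
      · linear_combination -h02
      · linear_combination -h12
  obtain ⟨η, hη0, hη1, hη, -, -⟩ := exists_eta_bound (K := K)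
    (c := max ‖w 0‖ (max ‖w 1‖ ‖w 2‖)) (max_lt (hw1 0) (max_lt (hw1 1) (hw1 2)))
  simp only [max_lt_iff] at hη
  have hηp : 0 < ‖η‖ := norm_pos_iff.mpr hη0
  let cw : Fin 3 → Fin 4 → K := fun j => ![0, w j / η, 0, 0]
  have hcw : ∀ j k, ‖cw j k‖ < 1 := fun j k => by
    have e1 : ‖w j / η‖ < 1 := by
      rw [norm_div, div_lt_one hηp]
      fin_cases j
      exacts [hη.1, hη.2.1, hη.2.2]
    fin_cases k <;> simp only [cw, Fin.zero_eta, Fin.mk_one, Fin.reduceFinMk, Matrix.cons_val] <;>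
      first | exact e1 | simp
  let cu : Fin 3 → Fin 4 → K := fun j => ![u j, 0, 0, 0]
  have hcu : ∀ j k, ‖cu j k‖ < 1 := fun j k => by
    fin_cases k <;> simp only [cu, Fin.zero_eta, Fin.mk_one, Fin.reduceFinMk, Matrix.cons_val] <;>
      first | exact hu1 j | simp
  have key := Persists.curve hS cu cw (fun j => hcu j 0) (fun j => hcw j 0)
    (fun j k => (hcu j k).le) (fun j k => (hcw j k).le)
    (ε := ‖η‖ / (‖μ‖ + 1)) (by positivity) ?_ (z := η) hη1
  · intro P h0 h1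
    refine key P (fun j => ?_) (fun j => ?_)
    · rw [h0]; simp [cubic, cu]
    · rw [h1]; simp [cubic, cw]; field_simp
  · intro z hz _
    rw [lt_div_iff₀ (by positivity)] at hz
    have hμ' : ‖μ * (z / η)‖ < 1 := by
      rw [norm_mul, norm_div, ← mul_div_assoc, div_lt_one hηp]
      nlinarith [norm_nonneg z, norm_nonneg μ]
    intro P h0 h1
    refine sat_small hS h2 hδ0 hδ1 hG hu (hu1 1) (hu1 2) hμ' P (fun j => ?_) (fun j => ?_)
    · rw [h0]; fin_cases j <;> simp [cubic, cu]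
    · rw [h1]; fin_cases j <;> simp [cubic, cw, hμ] <;> ring

end Fermat.Agent.RT.Germ
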