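import Fermat.Agent.RT.Germ.Leading

/-!
# Persistence of vanishing along analytic families
-/

set_option autoImplicit false

namespace Fermat.Agent.RT.Germ

variable {K : Type*} [NontriviallyNormedField K] [IsUltrametricDist K] [CompleteSpace K]
  {O : Type*} [CommRing O] {σ τ : Type*} [Finite σ] [Finite τ]

theorem evBall_C {b : τ → ball1 K} {hb : ∀ i, ‖(b i : K)‖ < 1} (c : ball1 K) :
    evBall b hb (MvPowerSeries.C c) = c := by
  rw [evBall_eq_ev, ev_C, RingHom.id_apply]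

theorem evBall_X {b : τ → ball1 K} {hb : ∀ i, ‖(b i : K)‖ < 1} (i : τ) :
    evBall b hb (MvPowerSeries.X i) = b i := by
  rw [evBall_eq_ev, ev_X]

theorem ev_congr (φ : O →+* ball1 K) {a a' : σ → ball1 K} (h : a = a')
    (ha : ∀ i, ‖(a i : K)‖ < 1) (ha' : ∀ i, ‖(a' i : K)‖ < 1) (f : MvPowerSeries σ O) :
    ev φ a ha f = ev φ a' ha' f := by
  subst h
  rfl

/-- A series over the ball vanishing near the origin is zero. -/
theorem eq_zero_of_small {g : MvPowerSeries τ (ball1 K)} {ε : ℝ} (hε : 0 < ε)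
    (h : ∀ (b : τ → ball1 K) (hb : ∀ i, ‖(b i : K)‖ < 1), (∀ i, ‖(b i : K)‖ < ε) →
      evBall b hb g = 0) : g = 0 := by
  have := Fintype.ofFinite τ
  refine MvPowerSeries.ext fun d => ?_
  by_contra hd
  obtain ⟨x, hx, hxε, hne⟩ := exists_ev_ne_zero (RingHom.id (ball1 K)) (f := g) (d₁ := d) hd hε
  exact hne (by rw [← evBall_eq_ev]; exact h x hx hxε)

/-- If the pull back of `f` along a family vanishes near the origin, it vanishes. -/
theorem compose_eq_zero (φ : O →+* ball1 K) (x : σ → MvPowerSeries τ (ball1 K))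
    (hx : ∀ i, ‖((MvPowerSeries.constantCoeff (x i) : ball1 K) : K)‖ < 1) (f : MvPowerSeries σ O)
    {ε : ℝ} (hε : 0 < ε)
    (h : ∀ (b : τ → ball1 K) (hb : ∀ i, ‖(b i : K)‖ < 1), (∀ i, ‖(b i : K)‖ < ε) →
      ev φ (fun i => evBall b hb (x i)) (fun i => norm_evBall_lt_one (hx i) b hb) f = 0) :
    compose φ x hx f = 0 :=
  eq_zero_of_small hε fun b hb hbε => by rw [evBall_compose]; exact h b hb hbε

/-- Vanishing near the origin of a family propagates to the whole family. -/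
theorem ev_family_eq_zero (φ : O →+* ball1 K) (x : σ → MvPowerSeries τ (ball1 K))
    (hx : ∀ i, ‖((MvPowerSeries.constantCoeff (x i) : ball1 K) : K)‖ < 1) (f : MvPowerSeries σ O)
    {ε : ℝ} (hε : 0 < ε)
    (h : ∀ (b : τ → ball1 K) (hb : ∀ i, ‖(b i : K)‖ < 1), (∀ i, ‖(b i : K)‖ < ε) →
      ev φ (fun i => evBall b hb (x i)) (fun i => norm_evBall_lt_one (hx i) b hb) f = 0)
    (b : τ → ball1 K) (hb : ∀ i, ‖(b i : K)‖ < 1) :
    ev φ (fun i => evBall b hb (x i)) (fun i => norm_evBall_lt_one (hx i) b hb) f = 0 := by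
  rw [← evBall_compose φ x hx b hb f, compose_eq_zero φ x hx f hε h, map_zero]

omit [IsUltrametricDist K] [CompleteSpace K] in
/-- Elements of norm as close to `1` as wanted. -/
theorem exists_eta [IsAlgClosed K] {c : ℝ} (hc : c < 1) (n : ℕ) :
    ∃ η : K, η ≠ 0 ∧ ‖η‖ < 1 ∧ c < ‖η‖ ^ n := by
  obtain ⟨π, hπ0, hπ1⟩ := NormedField.exists_norm_lt_one K
  have hlim : Filter.Tendsto (fun m : ℕ => (‖π‖ ^ ((m : ℝ)⁻¹)) ^ n) Filter.atTop (nhds 1) := by
    have h1 : Filter.Tendsto (fun m : ℕ => ‖π‖ ^ ((m : ℝ)⁻¹)) Filter.atTop (nhds 1) := by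
      have h := tendsto_natCast_atTop_atTop (R := ℝ)
      have h' := (tendsto_inv_atTop_zero.comp h)
      simpa [Function.comp_def] using
        (Real.continuousAt_const_rpow (a := ‖π‖) (b := 0) hπ0.ne').tendsto.comp h'
    simpa using h1.pow n
  obtain ⟨m, hm, hm0⟩ := ((hlim.eventually_const_lt hc).and (Filter.eventually_gt_atTop 0)).exists
  obtain ⟨η, hη⟩ := IsAlgClosed.exists_pow_nat_eq π hm0
  have hnorm : ‖η‖ = ‖π‖ ^ ((m : ℝ)⁻¹) := by
    rw [← hη, norm_pow, Real.pow_rpow_inv_natCast (norm_nonneg _) hm0.ne']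
  refine ⟨η, fun h => ?_, ?_, hnorm ▸ hm⟩
  · subst h
    rw [zero_pow hm0.ne'] at hη
    simp [← hη] at hπ0
  · rw [hnorm]
    exact Real.rpow_lt_one (norm_nonneg _) hπ1 (by positivity)

end Fermat.Agent.RT.Germ
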