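import Fermat.Agent.RT.Germ.Ball

/-!
# Leading terms along monomial arcs
-/

set_option autoImplicit false

namespace Fermat.Agent.RT.Germ

section Weights

variable {σ : Type*} [Fintype σ]

/-- The weight of an exponent. -/
def weight (k : σ → ℕ) (d : σ →₀ ℕ) : ℕ := ∑ i, k i * d i

/-- The total degree of an exponent. -/
def tdeg (d : σ →₀ ℕ) : ℕ := ∑ i, d i

/-- Weights, as large as wanted, that single out one exponent of a nonempty set and separate
exponents of degree two. -/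
theorem exists_weights {A : Set (σ →₀ ℕ)} (hA : A.Nonempty) :
    ∃ k : σ → ℕ, (∀ i, 1 ≤ k i) ∧ (∃ d₀ ∈ A, ∀ d ∈ A, d ≠ d₀ → weight k d₀ < weight k d) ∧
      ∀ d d' : σ →₀ ℕ, tdeg d = 2 → tdeg d' = 2 → weight k d = weight k d' → d = d' := by
  classical
  obtain ⟨d₁, hd₁, hmin⟩ := (measure (tdeg (σ := σ))).wf.has_min A hA
  set m := tdeg d₁ with hm
  set n := Fintype.card σ with hn
  let e : σ ≃ Fin n := Fintype.equivFin σ
  set M := m + 3 with hM
  set L := (m + 3) * M ^ n + 1 with hL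
  set k : σ → ℕ := fun i => L + M ^ (e i : ℕ) with hk
  set B : (σ →₀ ℕ) → ℕ := fun d => ∑ i, d i * M ^ (e i : ℕ) with hB
  have hsplit : ∀ d, weight k d = L * tdeg d + B d := fun d => by
    simp only [weight, tdeg, hk, hB, Finset.mul_sum, ← Finset.sum_add_distrib]
    exact Finset.sum_congr rfl fun i _ => by ring
  have hle : ∀ (d : σ →₀ ℕ) (i : σ), d i ≤ tdeg d := fun d i =>
    Finset.single_le_sum (f := fun j => d j) (fun j _ => Nat.zero_le _) (Finset.mem_univ i)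
  have hBinj : ∀ d d' : σ →₀ ℕ, tdeg d < M → tdeg d' < M → B d = B d' → d = d' := by
    intro d d' h h' hdd
    let F : ∀ d : σ →₀ ℕ, tdeg d < M → Fin n → Fin M := fun d h j =>
      ⟨d (e.symm j), (hle d _).trans_lt h⟩
    have hF : ∀ d h, ((finFunctionFinEquiv (F d h) : Fin (M ^ n)) : ℕ) = B d := fun d h => by
      rw [finFunctionFinEquiv_apply, hB]
      exact (Fintype.sum_equiv e _ _ fun i => by simp [F]).symm
    have := finFunctionFinEquiv.injective (Fin.ext ((hF d h).trans (hdd.trans (hF d' h').symm)))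
    ext i
    have := congrArg Fin.val (congrFun this (e i))
    simpa [F] using this
  refine ⟨k, fun i => ?_, ?_, fun d d' h h' hdd => ?_⟩
  · simp only [hk, hL]
    omega
  · obtain ⟨d₀, ⟨hd₀, hdeg⟩, hmin₀⟩ :=
      (measure B).wf.has_min {d ∈ A | tdeg d = m} ⟨d₁, hd₁, rfl⟩
    refine ⟨d₀, hd₀, fun d hd hne => ?_⟩
    have hge : m ≤ tdeg d := le_of_not_gt fun h => hmin d hd h
    rw [hsplit, hsplit, hdeg]
    rcases eq_or_lt_of_le hge with heq | hlt
    · rw [← heq]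
      have h1 : B d₀ ≤ B d := le_of_not_gt fun h => hmin₀ d ⟨hd, heq.symm⟩ h
      have h2 : B d₀ ≠ B d := fun h =>
        hne (hBinj _ _ (by omega) (by omega) h).symm
      omega
    · have hb : B d₀ ≤ m * M ^ n := by
        have : B d₀ ≤ ∑ i, d₀ i * M ^ n := Finset.sum_le_sum fun i _ =>
          Nat.mul_le_mul_left _ (Nat.pow_le_pow_right (by omega) (e i).2.le)
        rwa [← Finset.sum_mul, show ∑ i, d₀ i = m from hdeg] at this
      have h3 : L * m + B d₀ < L * (m + 1) := by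
        have : m * M ^ n < L := by
          rw [hL]
          nlinarith [Nat.zero_le (M ^ n)]
        rw [Nat.mul_succ]
        omega
      calc L * m + B d₀ < L * (m + 1) := h3
        _ ≤ L * tdeg d := Nat.mul_le_mul_left _ hlt
        _ ≤ _ := Nat.le_add_right _ _
  · rw [hsplit, hsplit, h, h'] at hdd
    exact hBinj _ _ (by omega) (by omega) (by omega)

theorem prod_pow_eq {R : Type*} [CommMonoid R] (k : σ → ℕ) (z : R) (d : σ →₀ ℕ) :
    (d.prod fun i e => (z ^ k i) ^ e) = z ^ weight k d := by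
  classical
  rw [Finsupp.prod_fintype _ _ fun i => pow_zero _]
  simp only [weight, ← pow_mul, Finset.prod_pow_eq_pow_sum]

end Weights

variable {K : Type*} [NontriviallyNormedField K] [IsUltrametricDist K] [CompleteSpace K]
  {O : Type*} [CommRing O] {σ : Type*} [Fintype σ]

omit [IsUltrametricDist K] [CompleteSpace K] in
theorem norm_pow_lt_one {z : K} (hz : ‖z‖ < 1) {n : ℕ} (hn : 1 ≤ n) : ‖z ^ n‖ < 1 := by
  rw [norm_pow]
  exact pow_lt_one₀ (norm_nonneg _) hz (by omega)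

/-- The monomial arc. -/
def arc (k : σ → ℕ) (z : ball1 K) : σ → ball1 K := fun i => z ^ k i

omit [CompleteSpace K] [Fintype σ] in
theorem arc_lt {k : σ → ℕ} (hk : ∀ i, 1 ≤ k i) {z : ball1 K} (hz : ‖(z : K)‖ < 1) (i : σ) :
    ‖(arc k z i : K)‖ < 1 := by
  simpa [arc] using norm_pow_lt_one hz (hk i)

/-- The value on a monomial arc is dominated by the term of least weight. -/
theorem norm_ev_arc (φ : O →+* ball1 K) {k : σ → ℕ} (hk : ∀ i, 1 ≤ k i)
    {z : ball1 K} (hz : ‖(z : K)‖ < 1) (f : MvPowerSeries σ O) (d₀ : σ →₀ ℕ)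
    {B : ℝ} (hB : 0 ≤ B) (hBlt : B < ‖(φ (MvPowerSeries.coeff d₀ f) : K)‖ * ‖(z : K)‖ ^ weight k d₀)
    (hbound : ∀ d, d ≠ d₀ → ‖(φ (MvPowerSeries.coeff d f) : K)‖ * ‖(z : K)‖ ^ weight k d ≤ B) :
    ‖(ev φ (arc k z) (arc_lt hk hz) f : K)‖ =
      ‖(φ (MvPowerSeries.coeff d₀ f) : K)‖ * ‖(z : K)‖ ^ weight k d₀ := by
  have hprod : ∀ d : σ →₀ ℕ, (d.prod fun i e => (arc k z i : K) ^ e) = (z : K) ^ weight k d :=
    fun d => by simp only [arc, SubmonoidClass.coe_pow, prod_pow_eq]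
  have h := norm_ev_sub_term_le φ (arc k z) (arc_lt hk hz) f d₀ hB fun d hd => by
    rw [hprod, norm_mul, norm_pow]
    exact hbound d hd
  rw [hprod] at h
  set T : K := (φ (MvPowerSeries.coeff d₀ f) : K) * (z : K) ^ weight k d₀ with hT
  set E : K := (ev φ (arc k z) (arc_lt hk hz) f : K)
  have hTn : ‖T‖ = ‖(φ (MvPowerSeries.coeff d₀ f) : K)‖ * ‖(z : K)‖ ^ weight k d₀ := by
    rw [hT, norm_mul, norm_pow]
  rw [← hTn] at hBlt ⊢
  have hne : ‖E - T‖ ≠ ‖T‖ := (h.trans_lt hBlt).ne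
  have := IsUltrametricDist.norm_add_eq_max_of_norm_ne_norm hne
  rw [sub_add_cancel] at this
  rw [this, max_eq_right (h.trans hBlt.le)]

/-- A nonzero series does not vanish near the origin. -/
theorem exists_ev_ne_zero (φ : O →+* ball1 K) {f : MvPowerSeries σ O}
    {d₁ : σ →₀ ℕ} (hd₁ : φ (MvPowerSeries.coeff d₁ f) ≠ 0) {ε : ℝ} (hε : 0 < ε) :
    ∃ (x : σ → ball1 K) (hx : ∀ i, ‖(x i : K)‖ < 1), (∀ i, ‖(x i : K)‖ < ε) ∧
      ev φ x hx f ≠ 0 := by
  obtain ⟨k, hk, ⟨d₀, hd₀, hmin⟩, -⟩ :=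
    exists_weights (A := {d | φ (MvPowerSeries.coeff d f) ≠ 0}) ⟨d₁, hd₁⟩
  have hc : 0 < ‖(φ (MvPowerSeries.coeff d₀ f) : K)‖ := by
    simpa [norm_pos_iff] using Subtype.coe_injective.ne hd₀
  set c := ‖(φ (MvPowerSeries.coeff d₀ f) : K)‖
  obtain ⟨z, hz0, hz⟩ := NormedField.exists_norm_lt K (lt_min (lt_min hε one_pos) hc)
  simp only [lt_min_iff] at hz
  obtain ⟨⟨hzε, hz1⟩, hzc⟩ := hz
  let w : ball1 K := ⟨z, hz1.le⟩
  have hw : ‖(w : K)‖ < 1 := hz1
  have hlt : ‖z‖ ^ (weight k d₀ + 1) < c * ‖z‖ ^ weight k d₀ := by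
    rw [pow_succ, mul_comm]
    exact mul_lt_mul_of_pos_right hzc (pow_pos hz0 _)
  have hbound : ∀ d, d ≠ d₀ →
      ‖(φ (MvPowerSeries.coeff d f) : K)‖ * ‖(w : K)‖ ^ weight k d ≤
        ‖z‖ ^ (weight k d₀ + 1) := by
    intro d hd
    by_cases h0 : φ (MvPowerSeries.coeff d f) = 0
    · simp [h0, norm_nonneg]
    · calc ‖(φ (MvPowerSeries.coeff d f) : K)‖ * ‖(w : K)‖ ^ weight k d
          ≤ 1 * ‖z‖ ^ weight k d :=
            mul_le_mul_of_nonneg_right (norm_coe_le _) (pow_nonneg (norm_nonneg _) _)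
        _ ≤ ‖z‖ ^ (weight k d₀ + 1) := by
            rw [one_mul]
            exact pow_le_pow_of_le_one (norm_nonneg _) hz1.le (hmin d h0 hd)
  refine ⟨arc k w, arc_lt hk hw, fun i => ?_, ?_⟩
  · simp only [arc, SubmonoidClass.coe_pow, norm_pow]
    exact lt_of_le_of_lt (pow_le_of_le_one (norm_nonneg _) hz1.le (by have := hk i; omega)) hzε
  · intro h0
    have := norm_ev_arc φ hk hw f d₀
      (pow_nonneg (norm_nonneg _) _) hlt hbound
    rw [h0] at this
    simp only [ZeroMemClass.coe_zero, norm_zero] at this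
    exact (mul_pos hc (pow_pos hz0 _)).ne this

end Fermat.Agent.RT.Germ
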